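/-
Existence of Frobenius elements in the absolute Galois group of ℚ:
for every valuation subring `A` of an algebraically closed Galois extension `L/ℚ`
lying over a prime `ℓ` there is `σ ∈ Gal(L/ℚ)` with `A.IsFrobeniusAt σ ℓ`.
Also: such valuation subrings exist for every prime `ℓ`.
-/
import Mathlib
import Fermat.Prelude.Def_EllipticCurve_FrobeniusTrace

set_option autoImplicit false

namespace Fermat.Agent.Lib.Helper6

open Polynomial
open scoped Pointwise

section Step1

variable {L : Type*} [Field L]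

/-- evaluation of an integer polynomial at an element of a subring stays in the subring -/
theorem aeval_int_mem_subring (A : Subring L) {x : L} (hx : x ∈ A) (g : ℤ[X]) :
    aeval x g ∈ A := by
  rw [aeval_eq_sum_range]
  exact Subring.sum_mem _ fun i _ => A.zsmul_mem (A.pow_mem hx i) _

/-- iterated `divX` and its evaluation: the sequence `e_k`. -/
theorem aeval_divX_iterate_succ (x : L) (f : ℤ[X]) (k : ℕ) :
    aeval x (divX^[k] f) = x * aeval x (divX^[k+1] f) + ((f.coeff k : ℤ) : L) := by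
  have h := divX_mul_X_add (divX^[k] f)
  have hc : (divX^[k] f).coeff 0 = f.coeff k := by
    clear h
    induction k generalizing f with
    | zero => simp
    | succ n ih =>
      rw [Function.iterate_succ_apply, ih, coeff_divX]
  rw [Function.iterate_succ_apply']
  conv_lhs => rw [← h]
  simp [hc, mul_comm]

theorem coeff_divX_iterate (f : ℤ[X]) (k i : ℕ) :
    (divX^[k] f).coeff i = f.coeff (i + k) := by
  induction k generalizing f i with
  | zero => simp
  | succ n ih =>
    rw [Function.iterate_succ_apply, ih, coeff_divX, add_assoc]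

/-- For every valuation subring `V`, `e_k ∈ V` and `x * e_k ∈ V`. -/
theorem aeval_divX_iterate_mem (V : ValuationSubring L) (x : L) (f : ℤ[X])
    (hf : aeval x f = 0) (k : ℕ) :
    aeval x (divX^[k] f) ∈ V ∧ x * aeval x (divX^[k] f) ∈ V := by
  by_cases hx : x ∈ V
  · have h1 : aeval x (divX^[k] f) ∈ V := aeval_int_mem_subring V.toSubring hx _
    exact ⟨h1, V.mul_mem _ _ hx h1⟩
  · have hx0 : x ≠ 0 := fun h => hx (h ▸ V.zero_mem)
    have hxinv : x⁻¹ ∈ V := (V.mem_or_inv_mem x).resolve_left hx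
    induction k with
    | zero =>
      simp only [Function.iterate_zero, id_eq, hf, mul_zero]
      exact ⟨V.zero_mem, V.zero_mem⟩
    | succ n ih =>
      have h := aeval_divX_iterate_succ x f n
      have h2 : x * aeval x (divX^[n+1] f) ∈ V := by
        have : x * aeval x (divX^[n+1] f) = aeval x (divX^[n] f) - ((f.coeff n : ℤ) : L) := by
          rw [h]; ring
        rw [this]
        exact sub_mem ih.1 (intCast_mem V _)
      refine ⟨?_, h2⟩
      have : aeval x (divX^[n+1] f) = x⁻¹ * (x * aeval x (divX^[n+1] f)) := by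
        rw [← mul_assoc, inv_mul_cancel₀ hx0, one_mul]
      rw [this]
      exact V.mul_mem _ _ hxinv h2

theorem isIntegral_int_of_forall_mem_valuationSubring (s : L)
    (h : ∀ V : ValuationSubring L, s ∈ V) : IsIntegral ℤ s := by
  have key := iInf_valuationSubring_superset (K := L) (s := (∅ : Set L))
  have hs : s ∈ (⨅ V : {V : ValuationSubring L // (∅ : Set L) ⊆ V.toSubring}, V.1.toSubring) := by
    rw [Subring.mem_iInf]
    intro V
    exact h V.1
  rw [key] at hs
  have hs' : IsIntegral (Subring.closure (∅ : Set L)) s := hs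
  have : Algebra.IsIntegral ℤ (Subring.closure (∅ : Set L)) := by
    constructor
    rintro ⟨y, hy⟩
    rw [Subring.closure_empty, Subring.mem_bot] at hy
    obtain ⟨n, rfl⟩ := hy
    have : (⟨(n : L), by rw [Subring.closure_empty, Subring.mem_bot]; exact ⟨n, rfl⟩⟩ :
      Subring.closure (∅ : Set L)) = algebraMap ℤ _ n := by
      apply Subtype.ext; simp
    rw [this]
    exact isIntegral_algebraMap
  exact isIntegral_trans s hs'

/-- an integer prime to `ℓ` is not a nonunit of a valuation subring over `ℓ`. -/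
theorem intCast_not_mem_nonunits (A : ValuationSubring L) {ℓ : ℕ} (hℓ : ℓ.Prime)
    (hA : (ℓ : L) ∈ A.nonunits) {a : ℤ} (ha : ¬ (ℓ : ℤ) ∣ a) : (a : L) ∉ A.nonunits := by
  intro hmem
  have hcop : IsCoprime (ℓ : ℤ) a := by
    rw [Int.isCoprime_iff_gcd_eq_one]
    have := (Nat.Prime.coprime_iff_not_dvd hℓ).mpr (fun h => ha (Int.natCast_dvd.mpr h))
    simpa [Int.gcd] using this
  obtain ⟨u, w, huw⟩ := hcop
  have h1 : ((u : L) * (ℓ : L) + (w : L) * (a : L)) = 1 := by
    have := congrArg (Int.cast (R := L)) huw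
    push_cast at this
    exact this
  rw [A.mem_nonunits_iff] at hA hmem
  have hu : A.valuation (u : L) ≤ 1 := (A.valuation_le_one_iff _).mpr (intCast_mem A u)
  have hw : A.valuation (w : L) ≤ 1 := (A.valuation_le_one_iff _).mpr (intCast_mem A w)
  have h2 : A.valuation ((u : L) * (ℓ : L)) < 1 := by
    rw [map_mul]
    calc A.valuation (u : L) * A.valuation (ℓ : L) ≤ 1 * A.valuation (ℓ : L) := by gcongr
      _ < 1 := by rwa [one_mul]
  have h3 : A.valuation ((w : L) * (a : L)) < 1 := by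
    rw [map_mul]
    calc A.valuation (w : L) * A.valuation (a : L) ≤ 1 * A.valuation (a : L) := by gcongr
      _ < 1 := by rwa [one_mul]
  have := A.valuation.map_add_lt h2 h3
  rw [h1, map_one] at this
  exact lt_irrefl _ this

theorem exists_integral_denominator [CharZero L] (A : ValuationSubring L) {ℓ : ℕ} (hℓ : ℓ.Prime)
    (hA : (ℓ : L) ∈ A.nonunits) {x : L} (hx : x ∈ A) (hxalg : IsAlgebraic ℤ x) :
    ∃ s : L, IsIntegral ℤ s ∧ IsIntegral ℤ (s * x) ∧ s ∈ A ∧ s ∉ A.nonunits := by
  obtain ⟨f0, hf0, hf0x⟩ := hxalg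
  set f := f0.primPart with hfdef
  have hprim : f.IsPrimitive := f0.isPrimitive_primPart
  have hfx : aeval x f = 0 := by
    have h := f0.eq_C_content_mul_primPart
    rw [h, map_mul, aeval_C] at hf0x
    have hc : (algebraMap ℤ L) f0.content ≠ 0 := by
      simpa using (content_eq_zero_iff.not.mpr hf0)
    exact (mul_eq_zero.mp hf0x).resolve_left hc
  have hex : ∃ i, ¬ (ℓ : ℤ) ∣ f.coeff i := by
    by_contra hcon
    simp only [not_exists, not_not] at hcon
    have hdvd : C (ℓ : ℤ) ∣ f := (C_dvd_iff_dvd_coeff _ _).mpr hcon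
    have hu := hprim _ hdvd
    have := Int.isUnit_iff.mp hu
    have h2 := hℓ.two_le
    omega
  obtain ⟨i0, hi0⟩ := hex
  have hi0le : i0 ≤ f.natDegree := by
    by_contra hgt
    rw [not_le] at hgt
    exact hi0 (by rw [coeff_eq_zero_of_natDegree_lt hgt]; exact dvd_zero _)
  classical
  set r := Nat.findGreatest (fun i => ¬ (ℓ : ℤ) ∣ f.coeff i) f.natDegree with hrdef
  have hr : ¬ (ℓ : ℤ) ∣ f.coeff r := Nat.findGreatest_spec (P := fun i => ¬ (ℓ : ℤ) ∣ f.coeff i) hi0le hi0
  have hgt : ∀ i, r < i → (ℓ : ℤ) ∣ f.coeff i := by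
    intro i hi
    by_cases hin : i ≤ f.natDegree
    · by_contra hnd
      exact Nat.findGreatest_is_greatest (P := fun i => ¬ (ℓ : ℤ) ∣ f.coeff i) hi hin hnd
    · rw [not_le] at hin
      rw [coeff_eq_zero_of_natDegree_lt hin]; exact dvd_zero _
  refine ⟨aeval x (divX^[r] f), ?_, ?_, ?_, ?_⟩
  · exact isIntegral_int_of_forall_mem_valuationSubring _
      fun V => (aeval_divX_iterate_mem V x f hfx r).1
  · rw [mul_comm]
    exact isIntegral_int_of_forall_mem_valuationSubring _
      fun V => (aeval_divX_iterate_mem V x f hfx r).2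
  · exact aeval_int_mem_subring A.toSubring hx _
  · intro hmem
    have hdvd : C (ℓ : ℤ) ∣ divX^[r+1] f := by
      rw [C_dvd_iff_dvd_coeff]
      intro i
      rw [coeff_divX_iterate]
      exact hgt _ (by omega)
    obtain ⟨g', hg'⟩ := hdvd
    have h := aeval_divX_iterate_succ x f r
    rw [hg', map_mul, aeval_C] at h
    have hcoeff : ((f.coeff r : ℤ) : L) = aeval x (divX^[r] f) - x * ((ℓ : L) * aeval x g') := by
      rw [h]; simp
    have hg'A : aeval x g' ∈ A := aeval_int_mem_subring A.toSubring hx _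
    have hv : A.valuation (x * ((ℓ : L) * aeval x g')) < 1 := by
      rw [map_mul, map_mul]
      have h1 : A.valuation x ≤ 1 := (A.valuation_le_one_iff _).mpr hx
      have h2 : A.valuation (aeval x g') ≤ 1 := (A.valuation_le_one_iff _).mpr hg'A
      have h3 : A.valuation (ℓ : L) < 1 := (A.mem_nonunits_iff).mp hA
      calc A.valuation x * (A.valuation (ℓ : L) * A.valuation (aeval x g'))
          ≤ 1 * (A.valuation (ℓ : L) * 1) := by gcongr
        _ < 1 := by simpa using h3
    have hv2 : A.valuation (aeval x (divX^[r] f)) < 1 := (A.mem_nonunits_iff).mp hmem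
    have hlt : A.valuation ((f.coeff r : ℤ) : L) < 1 := by
      rw [hcoeff]
      exact A.valuation.map_sub_lt hv2 hv
    exact intCast_not_mem_nonunits A hℓ hA hr ((A.mem_nonunits_iff).mpr hlt)

end Step1

section Step2

variable (L : Type*) [Field L] [Algebra ℚ L]

/-- The Galois action on the ring of algebraic integers of `L`. -/
@[reducible] noncomputable def galActionIntegers : MulSemiringAction (L ≃ₐ[ℚ] L) (integralClosure ℤ L) where
  smul σ b := ⟨σ b.1, map_isIntegral_int σ b.2⟩
  one_smul _ := Subtype.ext rfl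
  mul_smul _ _ _ := Subtype.ext rfl
  smul_zero σ := Subtype.ext (map_zero σ)
  smul_add σ a b := Subtype.ext (map_add σ a.1 b.1)
  smul_one σ := Subtype.ext (map_one σ)
  smul_mul σ a b := Subtype.ext (map_mul σ a.1 b.1)

attribute [local instance] galActionIntegers

theorem galActionIntegers_coe (σ : L ≃ₐ[ℚ] L) (b : integralClosure ℤ L) :
    ((σ • b : integralClosure ℤ L) : L) = σ (b : L) := rfl

theorem galActionIntegers_smulCommClass :
    SMulCommClass (L ≃ₐ[ℚ] L) ℤ (integralClosure ℤ L) where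
  smul_comm σ n b := by
    apply Subtype.ext
    simp

theorem galActionIntegers_isInvariant [IsGalois ℚ L] :
    Algebra.IsInvariant ℤ (integralClosure ℤ L) (L ≃ₐ[ℚ] L) where
  isInvariant b hb := by
    have h1 : (b : L) ∈ (⊥ : IntermediateField ℚ L) := by
      rw [InfiniteGalois.mem_bot_iff_fixed]
      intro f
      exact congrArg Subtype.val (hb f)
    rw [IntermediateField.mem_bot] at h1
    obtain ⟨q, hq⟩ := h1
    have hqint : IsIntegral ℤ q := by
      have := b.2
      rw [← hq] at this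
      exact (isIntegral_algebraMap_iff (algebraMap ℚ L).injective).mp this
    obtain ⟨n, hn⟩ := IsIntegrallyClosed.isIntegral_iff.mp hqint
    refine ⟨n, Subtype.ext ?_⟩
    rw [← hq, ← hn]
    simp

theorem integralClosure_le_valuationSubring (A : ValuationSubring L) {b : L}
    (hb : IsIntegral ℤ b) : b ∈ A := by
  have h : IsIntegral A b := hb.tower_top
  obtain ⟨y, hy⟩ := IsIntegrallyClosed.isIntegral_iff.mp h
  rw [← hy]
  exact y.2

def primeOfValuationSubring (A : ValuationSubring L) : Ideal (integralClosure ℤ L) where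
  carrier := {b | (b : L) ∈ A.nonunits}
  add_mem' {a b} ha hb := by
    simp only [Set.mem_ofPred_eq, ValuationSubring.mem_nonunits_iff] at *
    push_cast
    exact A.valuation.map_add_lt ha hb
  zero_mem' := by
    simp only [Set.mem_ofPred_eq, ValuationSubring.mem_nonunits_iff]
    simp
  smul_mem' c b hb := by
    simp only [Set.mem_ofPred_eq, ValuationSubring.mem_nonunits_iff] at *
    have hc : A.valuation (c : L) ≤ 1 :=
      (A.valuation_le_one_iff _).mpr (integralClosure_le_valuationSubring L A c.2)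
    rw [smul_eq_mul]
    push_cast
    rw [map_mul]
    calc A.valuation (c : L) * A.valuation (b : L) ≤ 1 * A.valuation (b : L) := by gcongr
      _ < 1 := by rwa [one_mul]

theorem mem_primeOfValuationSubring (A : ValuationSubring L) (b : integralClosure ℤ L) :
    b ∈ primeOfValuationSubring L A ↔ (b : L) ∈ A.nonunits := Iff.rfl

theorem primeOfValuationSubring_isPrime (A : ValuationSubring L) :
    (primeOfValuationSubring L A).IsPrime := by
  constructor
  · intro h
    have : (1 : integralClosure ℤ L) ∈ primeOfValuationSubring L A := h ▸ Submodule.mem_top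
    rw [mem_primeOfValuationSubring, ValuationSubring.mem_nonunits_iff] at this
    simp at this
  · intro a b hab
    rw [mem_primeOfValuationSubring, ValuationSubring.mem_nonunits_iff] at hab
    simp only [mem_primeOfValuationSubring, ValuationSubring.mem_nonunits_iff]
    push_cast at hab
    rw [map_mul] at hab
    have ha : A.valuation (a : L) ≤ 1 :=
      (A.valuation_le_one_iff _).mpr (integralClosure_le_valuationSubring L A a.2)
    have hb : A.valuation (b : L) ≤ 1 :=
      (A.valuation_le_one_iff _).mpr (integralClosure_le_valuationSubring L A b.2)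
    by_contra hcon
    rw [not_or, not_lt, not_lt] at hcon
    have ha1 : A.valuation (a : L) = 1 := le_antisymm ha hcon.1
    have hb1 : A.valuation (b : L) = 1 := le_antisymm hb hcon.2
    rw [ha1, hb1, one_mul] at hab
    exact lt_irrefl _ hab

theorem galActionIntegers_continuousSMul [Algebra.IsIntegral ℚ L]
    [TopologicalSpace (integralClosure ℤ L)] [DiscreteTopology (integralClosure ℤ L)] :
    ContinuousSMul (L ≃ₐ[ℚ] L) (integralClosure ℤ L) := by
  rw [continuousSMul_iff_stabilizer_isOpen]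
  intro b
  have := stabilizer_isOpen_of_isIntegral (K := ℚ) (L := L) (b : L)
  convert this using 1
  ext σ
  simp only [SetLike.mem_coe, MulAction.mem_stabilizer_iff, Subtype.ext_iff, galActionIntegers_coe]
  rfl

/-- The Frobenius automorphism of the residue ring of algebraic integers at a prime over `ℓ`. -/
noncomputable def frobAlgEquiv [IsAlgClosed L] (Q : Ideal (integralClosure ℤ L)) [Q.IsPrime]
    (ℓ : ℕ) (hℓ : ℓ.Prime) (hℓQ : ((ℓ : ℕ) : integralClosure ℤ L) ∈ Q) :
    ((integralClosure ℤ L) ⧸ Q) ≃ₐ[ℤ ⧸ Q.under ℤ] ((integralClosure ℤ L) ⧸ Q) := by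
  haveI : Fact ℓ.Prime := ⟨hℓ⟩
  haveI : IsDomain ((integralClosure ℤ L) ⧸ Q) := Ideal.Quotient.isDomain Q
  haveI : Nontrivial ((integralClosure ℤ L) ⧸ Q) :=
    Ideal.Quotient.nontrivial_iff.mpr (Ideal.IsPrime.ne_top inferInstance)
  haveI : CharP ((integralClosure ℤ L) ⧸ Q) ℓ := by
    have h0 : ((ℓ : ℕ) : (integralClosure ℤ L) ⧸ Q) = 0 := by
      have : Ideal.Quotient.mk Q ((ℓ : ℕ) : integralClosure ℤ L) = 0 :=
        Ideal.Quotient.eq_zero_iff_mem.mpr hℓQ
      simpa using this
    exact (CharP.charP_iff_prime_eq_zero hℓ).mpr h0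
  let f : ((integralClosure ℤ L) ⧸ Q) →ₐ[ℤ ⧸ Q.under ℤ] ((integralClosure ℤ L) ⧸ Q) :=
    { frobenius ((integralClosure ℤ L) ⧸ Q) ℓ with
      commutes' := by
        intro r
        obtain ⟨n, rfl⟩ := Ideal.Quotient.mk_surjective r
        have : algebraMap (ℤ ⧸ Q.under ℤ) ((integralClosure ℤ L) ⧸ Q) (Ideal.Quotient.mk _ n) =
            ((n : ℤ) : (integralClosure ℤ L) ⧸ Q) := by
          rw [Ideal.Quotient.algebraMap_mk_of_liesOver]
          simp
        simp only [RingHom.toMonoidHom_eq_coe, OneHom.toFun_eq_coe, MonoidHom.toOneHom_coe,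
          MonoidHom.coe_coe]
        rw [this, map_intCast] }
  refine AlgEquiv.ofBijective f ⟨?_, ?_⟩
  · exact frobenius_inj _ ℓ
  · intro y
    obtain ⟨b, rfl⟩ := Ideal.Quotient.mk_surjective y
    obtain ⟨c, hc⟩ := IsAlgClosed.exists_pow_nat_eq (b : L) hℓ.pos
    have hcint : IsIntegral ℤ c := IsIntegral.of_pow hℓ.pos (hc ▸ b.2)
    refine ⟨Ideal.Quotient.mk Q ⟨c, hcint⟩, ?_⟩
    show frobenius _ ℓ (Ideal.Quotient.mk Q ⟨c, hcint⟩) = _
    rw [frobenius_def, ← map_pow]
    congr 1
    exact Subtype.ext hc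

theorem frobAlgEquiv_apply [IsAlgClosed L] (Q : Ideal (integralClosure ℤ L)) [Q.IsPrime]
    (ℓ : ℕ) (hℓ : ℓ.Prime) (hℓQ : ((ℓ : ℕ) : integralClosure ℤ L) ∈ Q)
    (y : (integralClosure ℤ L) ⧸ Q) : frobAlgEquiv L Q ℓ hℓ hℓQ y = y ^ ℓ := rfl


theorem exists_isFrobeniusAt_of_liesOverPrime [IsGalois ℚ L] [IsAlgClosed L]
    (A : ValuationSubring L) {ℓ : ℕ} (hℓ : ℓ.Prime) (hA : A.LiesOverPrime ℓ) :
    ∃ σ : L ≃ₐ[ℚ] L, A.IsFrobeniusAt σ ℓ := by
  classical
  haveI : CharZero L := algebraRat.charZero L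
  haveI := galActionIntegers_smulCommClass L
  haveI := galActionIntegers_isInvariant L
  letI : TopologicalSpace (integralClosure ℤ L) := ⊥
  haveI : DiscreteTopology (integralClosure ℤ L) := ⟨rfl⟩
  haveI := galActionIntegers_continuousSMul L
  set Q := primeOfValuationSubring L A with hQdef
  haveI : Q.IsPrime := primeOfValuationSubring_isPrime L A
  have hℓQ : ((ℓ : ℕ) : integralClosure ℤ L) ∈ Q := by
    rw [hQdef, mem_primeOfValuationSubring]
    have hA' : ((ℓ : ℕ) : L) ∈ A.nonunits := hA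
    simpa using hA'
  obtain ⟨⟨σ, hσQ⟩, hσ⟩ := Ideal.Quotient.stabilizerHom_surjective_of_profinite
    (G := L ≃ₐ[ℚ] L) (Q.under ℤ) Q (frobAlgEquiv L Q ℓ hℓ hℓQ)
  -- the Frobenius congruence on algebraic integers
  have hfrob : ∀ b : integralClosure ℤ L, (σ (b : L) - (b : L) ^ ℓ) ∈ A.nonunits := by
    intro b
    have h1 := congrArg (fun e => e (Ideal.Quotient.mk Q b)) hσ
    simp only [Ideal.Quotient.stabilizerHom_apply, frobAlgEquiv_apply] at h1
    rw [← map_pow, Ideal.Quotient.eq] at h1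
    exact h1
  -- elements of the stabiliser of `Q` send integral units of `A` to units of `A`
  have key : ∀ τ : L ≃ₐ[ℚ] L, τ • Q = Q → ∀ s : L, IsIntegral ℤ s → s ∉ A.nonunits →
      A.valuation (τ s) = 1 := by
    intro τ hτ s hs hsnon
    have h1 : A.valuation (τ s) ≤ 1 := (A.valuation_le_one_iff _).mpr
      (integralClosure_le_valuationSubring L A (map_isIntegral_int τ hs))
    refine le_antisymm h1 (not_lt.mp fun hlt => hsnon ?_)
    have hmem : (τ • (⟨s, hs⟩ : integralClosure ℤ L)) ∈ τ • Q := by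
      rw [hτ, hQdef, mem_primeOfValuationSubring, A.mem_nonunits_iff]
      exact hlt
    rw [Ideal.smul_mem_pointwise_smul_iff] at hmem
    exact hmem
  have hstab : ∀ τ : L ≃ₐ[ℚ] L, τ • Q = Q → ∀ x ∈ A, τ x ∈ A := by
    intro τ hτ x hx
    have hxalg : IsAlgebraic ℤ x :=
      (IsFractionRing.isAlgebraic_iff ℤ ℚ L).mpr (Algebra.IsAlgebraic.isAlgebraic x)
    obtain ⟨s, hs, hsx, hsA, hsnon⟩ := exists_integral_denominator A hℓ hA hx hxalg
    have h1 := key τ hτ s hs hsnon
    have h2 : A.valuation (τ (s * x)) ≤ 1 := (A.valuation_le_one_iff _).mpr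
      (integralClosure_le_valuationSubring L A (map_isIntegral_int τ hsx))
    rw [map_mul, map_mul, h1, one_mul] at h2
    exact (A.valuation_le_one_iff _).mp h2
  have hσQ' : σ • Q = Q := hσQ
  have hσinvQ : σ⁻¹ • Q = Q := by
    conv_lhs => rw [← hσQ']
    rw [inv_smul_smul]
  have hσD : σ ∈ A.decompositionSubgroup ℚ := by
    rw [MulAction.mem_stabilizer_iff]
    ext x
    rw [ValuationSubring.mem_pointwise_smul_iff_inv_smul_mem]
    constructor
    · intro hx
      have := hstab σ hσQ' _ hx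
      simpa using this
    · intro hx
      exact hstab σ⁻¹ hσinvQ x hx
  refine ⟨σ, hσD, ?_⟩
  intro x
  obtain ⟨a, rfl⟩ := IsLocalRing.residue_surjective x
  rw [← IsLocalRing.ResidueField.residue_smul, ← map_pow]
  show Ideal.Quotient.mk _ _ = Ideal.Quotient.mk _ _
  rw [Ideal.Quotient.eq, A.valuation_lt_one_iff]
  have hcoe : (((⟨σ, hσD⟩ : A.decompositionSubgroup ℚ) • a - a ^ ℓ : A) : L) = σ (a : L) - (a : L) ^ ℓ := rfl
  rw [hcoe]
  have hxalg : IsAlgebraic ℤ (a : L) :=
    (IsFractionRing.isAlgebraic_iff ℤ ℚ L).mpr (Algebra.IsAlgebraic.isAlgebraic (a : L))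
  obtain ⟨s, hs, hsx, hsA, hsnon⟩ := exists_integral_denominator A hℓ hA a.2 hxalg
  have h1 := key σ hσQ' s hs hsnon
  have h2 := (A.mem_nonunits_iff).mp (hfrob ⟨s * a, hsx⟩)
  have h3 := (A.mem_nonunits_iff).mp (hfrob ⟨s, hs⟩)
  simp only at h2 h3
  have hid : σ s * (σ (a : L) - (a : L) ^ ℓ) =
      (σ (s * a) - (s * a) ^ ℓ) - (a : L) ^ ℓ * (σ s - s ^ ℓ) := by
    rw [map_mul]; ring
  have h4 : A.valuation ((a : L) ^ ℓ * (σ s - s ^ ℓ)) < 1 := by
    rw [map_mul]
    have : A.valuation ((a : L) ^ ℓ) ≤ 1 := (A.valuation_le_one_iff _).mpr (pow_mem a.2 ℓ)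
    calc A.valuation ((a : L) ^ ℓ) * A.valuation (σ s - s ^ ℓ)
        ≤ 1 * A.valuation (σ s - s ^ ℓ) := by gcongr
      _ < 1 := by rwa [one_mul]
  have h5 := A.valuation.map_sub_lt h2 h4
  rw [← hid, map_mul, h1, one_mul] at h5
  exact h5


end Step2

section Final

/-- Valuation subrings over a prime number exist in every field of characteristic zero. -/
theorem exists_valuationSubring_liesOverPrime (L : Type*) [Field L] [CharZero L] {ℓ : ℕ}
    (hℓ : ℓ.Prime) : ∃ A : ValuationSubring L, A.LiesOverPrime ℓ := by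
  let R : Subring L := (Int.castRingHom L).range
  let ℓ' : R := ⟨(ℓ : L), ⟨(ℓ : ℤ), by simp⟩⟩
  have hI : Ideal.span {ℓ'} ≠ ⊤ := by
    intro htop
    have h1 : (1 : R) ∈ Ideal.span {ℓ'} := htop ▸ Submodule.mem_top
    rw [Ideal.mem_span_singleton] at h1
    obtain ⟨⟨c, n, hn⟩, hc⟩ := h1
    have h2 : (1 : L) = (ℓ : L) * c := congrArg Subtype.val hc
    rw [← hn] at h2
    have h3 : (1 : ℤ) = (ℓ : ℤ) * n := by
      apply Int.cast_injective (α := L)
      push_cast
      simpa using h2
    have h4 : (ℓ : ℤ) ∣ 1 := ⟨n, h3⟩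
    have h5 := Int.natCast_dvd_natCast.mp (by simpa using h4 : ((ℓ : ℕ) : ℤ) ∣ ((1 : ℕ) : ℤ))
    exact hℓ.one_lt.ne' (Nat.dvd_one.mp h5)
  obtain ⟨V, -, hV⟩ := Ideal.image_subset_nonunits_valuationSubring (Ideal.span {ℓ'}) hI
  exact ⟨V, hV ⟨ℓ', Ideal.subset_span rfl, rfl⟩⟩

/-- `ℚ̄/ℚ` is Galois, for the `ℚ`-algebra structure found by instance search. -/
theorem isGalois_rat_algebraicClosure : IsGalois ℚ (AlgebraicClosure ℚ) := by
  have h : (DivisionRing.toRatAlgebra : Algebra ℚ (AlgebraicClosure ℚ)) =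
      AlgebraicClosure.instAlgebra ℚ := Subsingleton.elim _ _
  rw [h]
  letI : Algebra ℚ (AlgebraicClosure ℚ) := AlgebraicClosure.instAlgebra ℚ
  haveI : Normal ℚ (AlgebraicClosure ℚ) := IsAlgClosure.normal ℚ (AlgebraicClosure ℚ)
  exact ⟨⟩

/-- Every valuation subring of `ℚ̄` over a prime `ℓ` admits a Frobenius element. -/
theorem exists_isFrobeniusAt (A : ValuationSubring (AlgebraicClosure ℚ)) {ℓ : ℕ} (hℓ : ℓ.Prime)
    (hA : A.LiesOverPrime ℓ) :
    ∃ σ : AlgebraicClosure ℚ ≃ₐ[ℚ] AlgebraicClosure ℚ, A.IsFrobeniusAt σ ℓ := by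
  haveI := isGalois_rat_algebraicClosure
  exact exists_isFrobeniusAt_of_liesOverPrime (AlgebraicClosure ℚ) A hℓ hA

/-- Frobenius elements exist in the absolute Galois group of `ℚ`: for every prime `ℓ` there
are a valuation subring `A` of `ℚ̄` over `ℓ` and a Frobenius element `σ` at `A`. -/
theorem exists_frobenius (ℓ : ℕ) (hℓ : ℓ.Prime) :
    ∃ (A : ValuationSubring (AlgebraicClosure ℚ))
      (σ : AlgebraicClosure ℚ ≃ₐ[ℚ] AlgebraicClosure ℚ),
      A.LiesOverPrime ℓ ∧ A.IsFrobeniusAt σ ℓ := by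
  obtain ⟨A, hA⟩ := exists_valuationSubring_liesOverPrime (AlgebraicClosure ℚ) hℓ
  obtain ⟨σ, hσ⟩ := exists_isFrobeniusAt A hℓ hA
  exact ⟨A, σ, hA, hσ⟩

end Final

end Fermat.Agent.Lib.Helper6
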