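/-
Basic lemmas on `GaloisRepAdic`: characteristic polynomials are invariant under
`GaloisRepAdic.Equiv` and commute with `baseChangeAlong`.
-/
import Mathlib
import Fermat.Prelude.Def_GaloisRep_Adic

set_option autoImplicit false

namespace Fermat.Agent.Lib.Helper6

open Polynomial

variable {A : Type} [CommRing A] [IsLocalRing A]

/-- Equivalent representations have the same characteristic polynomials. -/
theorem charpoly_eq_of_galoisRepAdic_equiv {ρ₁ ρ₂ : GaloisRepAdic A}
    (e : GaloisRepAdic.Equiv ρ₁ ρ₂) (σ : AlgebraicClosure ℚ ≃ₐ[ℚ] AlgebraicClosure ℚ) :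
    LinearMap.charpoly (ρ₂.ρ σ) = LinearMap.charpoly (ρ₁.ρ σ) := by
  have h : ρ₂.ρ σ = e.toLinearEquiv.conj (ρ₁.ρ σ) := by
    apply LinearMap.ext
    intro x
    rw [LinearEquiv.conj_apply]
    simp only [LinearMap.coe_comp, LinearEquiv.coe_coe, Function.comp_apply]
    rw [e.map_apply, LinearEquiv.apply_symm_apply]
  rw [h, LinearEquiv.charpoly_conj]

/-- The characteristic polynomial of a base-changed representation. -/
theorem charpoly_baseChangeAlong {B : Type} [CommRing B] [IsLocalRing B] (φ : A →+* B)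
    (hφ : IsLocalHom φ) (ρ : GaloisRepAdic A)
    (σ : AlgebraicClosure ℚ ≃ₐ[ℚ] AlgebraicClosure ℚ) :
    LinearMap.charpoly ((ρ.baseChangeAlong φ hφ).ρ σ) = (LinearMap.charpoly (ρ.ρ σ)).map φ := by
  letI : Algebra A B := φ.toAlgebra
  exact LinearMap.charpoly_baseChange (ρ.ρ σ) B

end Fermat.Agent.Lib.Helper6
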